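import Mathlib
import Fermat.Agent.S59.H121.PeuSpec
import Fermat.Agent.S56.H460.UnrVal
import Fermat.Agent.Lib.Cheb.H643.FrobAt

/-!
# Row S59, cell TW, leaf PEU-FLAT : DENS (helper626, subtask 752)

`dens : Fermat.Agent.S59.H121.DensStatement`: `ℚ` is `p`-adically dense in the decomposition
field of a valuation subring `P` of `ℚ̄` over `p`: an element `x` fixed by `D_P` is congruent
to a rational number modulo `p ^ N`, for every `N`.

Proof.  A Frobenius `φ ∈ D_P` (`Lib.Cheb.H643.exists_isFrobeniusAt`) fixes `x`; for a `P`-integral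
`u` fixed by `φ` the residue `ū` satisfies `ū ^ p = ū`, hence lies in the prime field, i.e.
`u ≡ a mod 𝔪_P` for some `a : ℤ`.  By `S56.H460.unrVal` a nonzero `D_P`-fixed element has
valuation `v(p) ^ k`, `k : ℤ`; induction on the number of digits.
-/

set_option autoImplicit false

namespace Fermat.Agent.S59.H626

open Fermat.Agent.S19 (Qb GalQ)

/-- The residue field of a valuation subring of `ℚ̄` over `p` has characteristic `p`. -/
theorem charP_residueField_h626 (p : ℕ) (hp : p.Prime) (P : ValuationSubring Qb)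
    (hP : P.LiesOverPrime p) : CharP (IsLocalRing.ResidueField P) p := by
  have hpP : (p : Qb) ∈ P := P.nonunits_le hP
  have h0 : ((p : ℕ) : IsLocalRing.ResidueField P) = 0 := by
    have h1 : IsLocalRing.residue P ⟨(p : Qb), hpP⟩ = 0 := by
      rw [IsLocalRing.residue_eq_zero_iff, ← ValuationSubring.coe_mem_nonunits_iff]
      exact hP
    have h2 : (⟨(p : Qb), hpP⟩ : P) = ((p : ℕ) : P) := Subtype.ext (by simp)
    rw [h2, map_natCast] at h1
    exact h1
  obtain ⟨q, hq⟩ := CharP.exists (IsLocalRing.ResidueField P)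
  have hdvd : q ∣ p := (CharP.cast_eq_zero_iff (IsLocalRing.ResidueField P) q p).mp h0
  rcases (Nat.dvd_prime hp).mp hdvd with h | h
  · exfalso
    subst h
    exact CharP.false_of_nontrivial_of_char_one (R := IsLocalRing.ResidueField P)
  · subst h
    exact hq

/-- A `P`-integral element fixed by a Frobenius at `P` is congruent to an integer modulo the
maximal ideal of `P`. -/
theorem exists_int_sub_mem_nonunits_h626 (p : ℕ) (hp : p.Prime) (P : ValuationSubring Qb)
    (hP : P.LiesOverPrime p) (φ : GalQ) (hφ : P.IsFrobeniusAt φ p) (u : Qb) (hu : u ∈ P)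
    (hfix : φ u = u) : ∃ a : ℤ, u - (a : Qb) ∈ P.nonunits := by
  have : Fact p.Prime := ⟨hp⟩
  have : CharP (IsLocalRing.ResidueField P) p := charP_residueField_h626 p hp P hP
  have h1 : φ u - u ^ p ∈ P.nonunits := Fermat.Agent.Lib.Cheb.H643.IsFrobeniusAt_sub_pow_mem hφ hu
  rw [hfix] at h1
  have h2 : (IsLocalRing.residue P ⟨u, hu⟩) ^ p = IsLocalRing.residue P ⟨u, hu⟩ := by
    rw [eq_comm, ← sub_eq_zero, ← map_pow, ← map_sub, IsLocalRing.residue_eq_zero_iff,
      ← ValuationSubring.coe_mem_nonunits_iff]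
    exact h1
  obtain ⟨n, hn⟩ := (mem_bot_iff_intCast p (IsLocalRing.ResidueField P)).mp
    ((Subfield.mem_bot_iff_pow_eq_self (IsLocalRing.ResidueField P) p).mpr h2)
  refine ⟨n, ?_⟩
  have h3 : IsLocalRing.residue P (⟨u, hu⟩ - ((n : ℤ) : P)) = 0 := by
    rw [map_sub, map_intCast, hn, sub_self]
  rw [IsLocalRing.residue_eq_zero_iff, ← ValuationSubring.coe_mem_nonunits_iff] at h3
  simpa using h3

/-- Induction step package: for `x` fixed by `D_P` with `v(x) ≤ v(p) ^ k` there is a rational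
`q` with `v(x - q) ≤ v(p) ^ (k + m)`. -/
theorem dens_aux_h626 (p : ℕ) (hp : p.Prime) (P : ValuationSubring Qb)
    (hP : P.LiesOverPrime p) (m : ℕ) :
    ∀ x : Qb, (∀ σ ∈ P.decompositionSubgroup ℚ, σ x = x) → ∀ k : ℤ,
      P.valuation x ≤ P.valuation (p : Qb) ^ k →
      ∃ q : ℚ, P.valuation (x - (q : Qb)) ≤ P.valuation (p : Qb) ^ (k + (m : ℤ)) := by
  have hvp : P.valuation (p : Qb) < 1 := (ValuationSubring.mem_nonunits_iff P).mp hP
  have hp0' : (p : Qb) ≠ 0 := by exact_mod_cast hp.ne_zero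
  have hvp0 : P.valuation (p : Qb) ≠ 0 := (Valuation.ne_zero_iff _).mpr hp0'
  have hvpos : 0 < P.valuation (p : Qb) := zero_lt_iff.mpr hvp0
  obtain ⟨φ, hφ⟩ := Fermat.Agent.Lib.Cheb.H643.exists_isFrobeniusAt p hp P hP
  have hφD : φ ∈ P.decompositionSubgroup ℚ := hφ.mem_decompositionSubgroup
  have hIn : ∀ y : Qb, (∀ σ ∈ P.decompositionSubgroup ℚ, σ y = y) →
      ∀ σ ∈ P.inertiaSubgroupIn ℚ, σ y = y := by
    intro y hy σ hσ
    obtain ⟨g, _, rfl⟩ := hσ
    exact hy _ g.2
  induction m with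
  | zero =>
    intro x _ k hk
    refine ⟨0, ?_⟩
    simpa using hk
  | succ m ih =>
    intro x hx k hk
    by_cases hx0 : x = 0
    · refine ⟨0, ?_⟩
      simp [hx0]
    obtain ⟨k', hk'⟩ := Fermat.Agent.S56.H460.unrVal p hp P hP x hx0 (hIn x hx)
    have hkk' : k ≤ k' := by
      by_contra hlt
      have := zpow_lt_zpow_right_of_lt_one₀ hvpos hvp (not_le.mp hlt)
      rw [hk'] at hk
      exact absurd hk (not_le.mpr this)
    -- the unit part
    set u : Qb := x / (p : Qb) ^ k' with hu_def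
    have hpk0 : (p : Qb) ^ k' ≠ 0 := zpow_ne_zero _ hp0'
    have hvu : P.valuation u = 1 := by
      rw [hu_def, map_div₀, map_zpow₀, hk']
      exact div_self (zpow_ne_zero _ hvp0)
    have huP : u ∈ P := (P.valuation_le_one_iff u).mp hvu.le
    have hufix : ∀ σ ∈ P.decompositionSubgroup ℚ, σ u = u := by
      intro σ hσ
      rw [hu_def, map_div₀, map_zpow₀, map_natCast, hx σ hσ]
    obtain ⟨a, ha⟩ := exists_int_sub_mem_nonunits_h626 p hp P hP φ hφ u huP (hufix φ hφD)
    have hva : P.valuation (u - (a : Qb)) < 1 := (ValuationSubring.mem_nonunits_iff P).mp ha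
    -- the next remainder
    set x' : Qb := x - (a : Qb) * (p : Qb) ^ k' with hx'_def
    have hx'eq : x' = (p : Qb) ^ k' * (u - (a : Qb)) := by
      rw [hx'_def, hu_def]
      field_simp
    have hx'fix : ∀ σ ∈ P.decompositionSubgroup ℚ, σ x' = x' := by
      intro σ hσ
      rw [hx'_def, map_sub, map_mul, map_zpow₀, map_natCast, map_intCast, hx σ hσ]
    have hvx' : P.valuation x' < P.valuation (p : Qb) ^ k' := by
      rw [hx'eq, map_mul, map_zpow₀]
      calc P.valuation (p : Qb) ^ k' * P.valuation (u - (a : Qb))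
          < P.valuation (p : Qb) ^ k' * 1 :=
            mul_lt_mul_of_pos_left hva (zpow_pos hvpos k')
        _ = P.valuation (p : Qb) ^ k' := mul_one _
    have hvx'le : P.valuation x' ≤ P.valuation (p : Qb) ^ (k + 1) := by
      by_cases hx'0 : x' = 0
      · simp [hx'0]
      obtain ⟨k'', hk''⟩ := Fermat.Agent.S56.H460.unrVal p hp P hP x' hx'0 (hIn x' hx'fix)
      have hlt : k' < k'' := by
        by_contra hle
        have := zpow_le_zpow_right_of_le_one₀ hvpos hvp.le (not_lt.mp hle)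
        rw [← hk''] at this
        exact absurd hvx' (not_lt.mpr this)
      rw [hk'']
      exact zpow_le_zpow_right_of_le_one₀ hvpos hvp.le (by omega)
    obtain ⟨q', hq'⟩ := ih x' hx'fix (k + 1) hvx'le
    refine ⟨(a : ℚ) * (p : ℚ) ^ k' + q', ?_⟩
    have hcast : (((a : ℚ) * (p : ℚ) ^ k' + q' : ℚ) : Qb) = (a : Qb) * (p : Qb) ^ k' + (q' : Qb) := by
      push_cast
      rfl
    have hsub : x - (((a : ℚ) * (p : ℚ) ^ k' + q' : ℚ) : Qb) = x' - (q' : Qb) := by
      rw [hcast, hx'_def]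
      ring
    rw [hsub]
    have hexp : k + ((m + 1 : ℕ) : ℤ) = k + 1 + (m : ℤ) := by push_cast; ring
    rw [hexp]
    exact hq'

/-- **Leaf DENS** (`Fermat.Agent.S59.H121.DensStatement`): `ℚ` is `p`-adically dense in the
decomposition field of `P`. -/
theorem dens : Fermat.Agent.S59.H121.DensStatement := by
  intro p hp P hP x hx N
  have hvp : P.valuation (p : Qb) < 1 := (ValuationSubring.mem_nonunits_iff P).mp hP
  have hp0' : (p : Qb) ≠ 0 := by exact_mod_cast hp.ne_zero
  have hvp0 : P.valuation (p : Qb) ≠ 0 := (Valuation.ne_zero_iff _).mpr hp0'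
  have hvpos : 0 < P.valuation (p : Qb) := zero_lt_iff.mpr hvp0
  by_cases hx0 : x = 0
  · refine ⟨0, ?_⟩
    simp [hx0]
  have hIn : ∀ σ ∈ P.inertiaSubgroupIn ℚ, σ x = x := by
    intro σ hσ
    obtain ⟨g, _, rfl⟩ := hσ
    exact hx _ g.2
  obtain ⟨k, hk⟩ := Fermat.Agent.S56.H460.unrVal p hp P hP x hx0 hIn
  obtain ⟨q, hq⟩ := dens_aux_h626 p hp P hP ((N : ℤ) - k).toNat x hx k hk.le
  refine ⟨q, hq.trans ?_⟩
  rw [← zpow_natCast]
  exact zpow_le_zpow_right_of_le_one₀ hvpos hvp.le (by omega)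

end Fermat.Agent.S59.H626
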